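import Fermat.Agent.S36.Norm.KForm.Main
import Fermat.Agent.S36.Mod.Mid

/-!
# S36/Norm/KForm: the four norm identities for the levels `N l ⊂ N l²`

`NmA` = norm along `f(q) ↦ f(q)`, `NmB` = norm along `f(q) ↦ f(q^l)`; `w₁`, `w₂` Atkin–Lehner, `τ_i` the middle
embeddings (`Mod.IsMid`).

* `coe_nmF_A`   : `NmA g = g · ∏_i τ_i g`
* `Vq_nmF_B`    : `V_l (NmB g) = ∏_ζ g(ζ q)`
* `Vq_w1_nmF_A` : `V_l (w₁ (NmA g)) = ∏_ζ (w₂ g)(ζ q)`
* `w1_nmF_B`    : `w₁ (NmB g) = w₂ g · ∏_i (τ_{ν i} g)(z_i q)`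
and the same for `nmK` (`NAinf`, `NBinf`, `NA0`, `NB0`), `nmK_al`, `nmK_be`.
-/

set_option autoImplicit false
set_option linter.style.haveILetI false
set_option linter.unusedSectionVars false

open AlgebraicCurve ModularCurve

namespace Fermat.Agent.S36.Norm.KForm

open Fermat.Agent.ES Fermat.Agent.S24 Fermat.Agent.SS Fermat.Agent.S36.Mod
open Fermat.Agent.Crux.GT.PF

noncomputable section

variable {N l : ℕ} [NeZero N] [NeZero l]

theorem dg_A (hA : 1 * (N * l) ∣ N * l * l) :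
    dg (N * l) (N * l * l) 1 hA = heckeAlphaBar Qb (N * l) l := dg_eq_alpha (N * l) l hA

theorem dg_B (hB : l * (N * l) ∣ N * l * l) :
    dg (N * l) (N * l * l) l hB = heckeBetaBar Qb (N * l) l := dg_eq_beta (N * l) l hB

theorem degHom_A (hl : l.Prime) (hA : 1 * (N * l) ∣ N * l * l) :
    degHom (dg (N * l) (N * l * l) 1 hA).toRingHom = l :=
  degHom_dg_prime_dvd (N * l) (N * l * l) 1 l hl (dvd_mul_left l N) (by ring) hA

theorem degHom_B (hl : l.Prime) (hB : l * (N * l) ∣ N * l * l) :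
    degHom (dg (N * l) (N * l * l) l hB).toRingHom = l :=
  degHom_dg_prime_dvd (N * l) (N * l * l) l l hl (dvd_mul_left l N) (by ring) hB

/-- the test function `j(q^{l²})`. -/
def jj (N l : ℕ) [NeZero N] [NeZero l] : FF (N * l * l) :=
  heckeBetaBar Qb (N * l) l (heckeBetaBar Qb N l (S24.jN N))

theorem coeff_jj (hl : l.Prime) : ((jj N l : FF (N * l * l)) : LaurentSeries Qb).coeff (-1) = 0 := by
  rw [jj, coe_heckeBetaBar]
  apply qExpand_coeff_of_not_dvd
  intro h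
  have h1 : (l : ℤ) ∣ 1 := by simpa using h
  have h2 : l ∣ 1 := by exact_mod_cast h1
  exact hl.one_lt.ne' (Nat.dvd_one.mp h2)

section Mid

variable {ι : Type*} [Fintype ι] (z : ι → Qbˣ) (tau : ι → FF (N * l * l) →ₐ[Qb] LaurentSeries Qb)

theorem coeff_tau_jj {z₀ : Qbˣ} {τ : FF (N * l * l) →ₐ[Qb] LaurentSeries Qb}
    (h : IsMid N l z₀ τ) : (τ (jj N l)).coeff (-1) = ((z₀ ^ (-1 : ℤ) : Qbˣ) : Qb) := by
  rw [jj, h.bb, twist_coeff, H1.coeff_jN, mul_one]

/-- `NmA g = g · ∏ τ_i g`. -/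
theorem coe_nmF_A (hl : l.Prime) (hA : 1 * (N * l) ∣ N * l * l) (hinj : Function.Injective z)
    (hcard : Fintype.card ι = l - 1) (htau : ∀ i, IsMid N l (z i) (tau i)) (g : FF (N * l * l)) :
    ((nmF (N * l) (N * l * l) 1 hA g : FF (N * l)) : LaurentSeries Qb)
      = (g : LaurentSeries Qb) * ∏ i, tau i g := by
  classical
  have key := normHom_eq_prod (dg (N * l) (N * l * l) 1 hA).toRingHom (finHom_dg _ _ _ hA)
    (H1.co (N * l))
    (fun o : Option ι => o.elim (H1.co (N * l * l)) (fun i => (tau i).toRingHom)) ?_ ?_ ?_ g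
  · rw [Fintype.prod_option] at key
    exact key
  · intro o x
    cases o with
    | none => exact coe_dg_one (N * l) (N * l * l) hA x
    | some i =>
      show tau i (dg (N * l) (N * l * l) 1 hA x) = (x : LaurentSeries Qb)
      rw [dg_A hA]
      exact (htau i).alpha x
  · intro o o' hoo
    have h1 := congrArg (fun s : LaurentSeries Qb => s.coeff (-1)) (RingHom.congr_fun hoo (jj N l))
    cases o with
    | none =>
      cases o' with
      | none => rfl
      | some i' =>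
        exfalso
        have h2 : ((jj N l : FF (N * l * l)) : LaurentSeries Qb).coeff (-1)
            = (tau i' (jj N l)).coeff (-1) := h1
        rw [coeff_jj hl, coeff_tau_jj (htau i')] at h2
        exact Units.ne_zero _ h2.symm
    | some i =>
      cases o' with
      | none =>
        exfalso
        have h2 : (tau i (jj N l)).coeff (-1)
            = ((jj N l : FF (N * l * l)) : LaurentSeries Qb).coeff (-1) := h1
        rw [coeff_jj hl, coeff_tau_jj (htau i)] at h2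
        exact Units.ne_zero _ h2
      | some i' =>
        have h2 : (tau i (jj N l)).coeff (-1) = (tau i' (jj N l)).coeff (-1) := h1
        rw [coeff_tau_jj (htau i), coeff_tau_jj (htau i')] at h2
        have h3 : (z i) ^ (-1 : ℤ) = (z i') ^ (-1 : ℤ) := Units.ext h2
        rw [zpow_neg_one, zpow_neg_one, inv_inj] at h3
        rw [hinj h3]
  · rw [Fintype.card_option, hcard, degHom_A hl hA]
    have := hl.pos
    omega

end Mid

section Tw

variable {μ : Type*} [Fintype μ] (zz : μ → Qbˣ)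

theorem prod_twist (hzz : ∀ ζ, zz ζ ^ l = 1) (hinj : Function.Injective zz)
    (hcard : Fintype.card μ = l) (x : LaurentSeries Qb) :
    ∏ ζ, twist (zz ζ) x = twistProd l x := by
  classical
  let e : μ → rootsOfUnity l Qb := fun ζ => ⟨zz ζ, (mem_rootsOfUnity _ _).mpr (hzz ζ)⟩
  have he : Function.Bijective e := by
    rw [Fintype.bijective_iff_injective_and_card]
    refine ⟨fun a b hab => hinj (congrArg Subtype.val hab), ?_⟩
    rw [hcard, H1.card_roots]
  exact Fintype.prod_bijective e he _ _ (fun _ => rfl)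

/-- `V_l (NmB g) = ∏ g(ζ q)`. -/
theorem Vq_nmF_B (hl : l.Prime) (hB : l * (N * l) ∣ N * l * l) (hzz : ∀ ζ, zz ζ ^ l = 1)
    (hinj : Function.Injective zz) (hcard : Fintype.card μ = l) (g : FF (N * l * l)) :
    Vq Qb l ((nmF (N * l) (N * l * l) l hB g : FF (N * l)) : LaurentSeries Qb)
      = ∏ ζ, twist (zz ζ) (g : LaurentSeries Qb) := by
  rw [prod_twist zz hzz hinj hcard]
  exact Vq_nmF (N * l) (N * l * l) l hl (dvd_mul_left l N) (by ring) hB g

end Tw

section AL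

variable {w₁ : FF (N * l) →ₐ[Qb] FF (N * l)} {w₂ : FF (N * l * l) →ₐ[Qb] FF (N * l * l)}

/-- an involutive algebra endomorphism as a ring equivalence. -/
def equivOfInvol {E : Type*} [Field E] [Algebra Qb E] (w : E →ₐ[Qb] E) (h : ∀ x, w (w x) = x) :
    E ≃+* E :=
  RingEquiv.ofRingHom w.toRingHom w.toRingHom (RingHom.ext h) (RingHom.ext h)

theorem w1_nmF_A (h₁ : IsAL N l w₁) (h₂ : IsAL2 N l w₂) (hl : l.Prime) (hN : ¬ l ∣ N)
    (hA : 1 * (N * l) ∣ N * l * l) (hB : l * (N * l) ∣ N * l * l) (g : FF (N * l * l)) :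
    w₁ (nmF (N * l) (N * l * l) 1 hA g) = nmF (N * l) (N * l * l) l hB (w₂ g) :=
  normHom_equiv (dg (N * l) (N * l * l) 1 hA).toRingHom (dg (N * l) (N * l * l) l hB).toRingHom
    (equivOfInvol w₁ (h₁.invol hl)) (equivOfInvol w₂ (h₂.invol hl hN)) (fun x => by
      show dg (N * l) (N * l * l) l hB (w₁ x) = w₂ (dg (N * l) (N * l * l) 1 hA x)
      rw [dg_A hA, dg_B hB]
      exact (h₂.alpha h₁ hl x).symm) g

theorem w1_nmF_B' (h₁ : IsAL N l w₁) (h₂ : IsAL2 N l w₂) (hl : l.Prime) (hN : ¬ l ∣ N)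
    (hA : 1 * (N * l) ∣ N * l * l) (hB : l * (N * l) ∣ N * l * l) (g : FF (N * l * l)) :
    w₁ (nmF (N * l) (N * l * l) l hB g) = nmF (N * l) (N * l * l) 1 hA (w₂ g) :=
  normHom_equiv (dg (N * l) (N * l * l) l hB).toRingHom (dg (N * l) (N * l * l) 1 hA).toRingHom
    (equivOfInvol w₁ (h₁.invol hl)) (equivOfInvol w₂ (h₂.invol hl hN)) (fun x => by
      show dg (N * l) (N * l * l) 1 hA (w₁ x) = w₂ (dg (N * l) (N * l * l) l hB x)
      rw [dg_A hA, dg_B hB]
      exact (h₂.beta h₁ hl x).symm) g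

/-- `V_l (w₁ (NmA g)) = ∏ (w₂ g)(ζ q)`. -/
theorem Vq_w1_nmF_A {μ : Type*} [Fintype μ] (zz : μ → Qbˣ) (h₁ : IsAL N l w₁) (h₂ : IsAL2 N l w₂)
    (hl : l.Prime) (hN : ¬ l ∣ N) (hA : 1 * (N * l) ∣ N * l * l) (hzz : ∀ ζ, zz ζ ^ l = 1)
    (hinj : Function.Injective zz) (hcard : Fintype.card μ = l) (g : FF (N * l * l)) :
    Vq Qb l ((w₁ (nmF (N * l) (N * l * l) 1 hA g) : FF (N * l)) : LaurentSeries Qb)
      = ∏ ζ, twist (zz ζ) ((w₂ g : FF (N * l * l)) : LaurentSeries Qb) := by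
  have hB : l * (N * l) ∣ N * l * l := ⟨1, by ring⟩
  rw [w1_nmF_A h₁ h₂ hl hN hA hB]
  exact Vq_nmF_B zz hl hB hzz hinj hcard (w₂ g)

/-- `w₁ (NmB g) = w₂ g · ∏ (τ_{ν i} g)(z_i q)`. -/
theorem w1_nmF_B {ι : Type*} [Fintype ι] (z : ι → Qbˣ)
    (tau : ι → FF (N * l * l) →ₐ[Qb] LaurentSeries Qb) (ν : ι → ι) (h₁ : IsAL N l w₁)
    (h₂ : IsAL2 N l w₂) (hl : l.Prime) (hN : ¬ l ∣ N) (hB : l * (N * l) ∣ N * l * l)
    (hinj : Function.Injective z) (hcard : Fintype.card ι = l - 1)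
    (htau : ∀ i, IsMid N l (z i) (tau i)) (hz : ∀ i, z i ^ l = 1) (hν : ∀ i, z (ν i) = (z i)⁻¹)
    (g : FF (N * l * l)) :
    ((w₁ (nmF (N * l) (N * l * l) l hB g) : FF (N * l)) : LaurentSeries Qb)
      = ((w₂ g : FF (N * l * l)) : LaurentSeries Qb) * ∏ i, twist (z i) (tau (ν i) g) := by
  have hA : 1 * (N * l) ∣ N * l * l := ⟨l, by ring⟩
  rw [w1_nmF_B' h₁ h₂ hl hN hA hB, coe_nmF_A z tau hl hA hinj hcard htau]
  congr 1
  refine Finset.prod_congr rfl fun i _ => ?_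
  exact (htau i).comp_w2 (hν i ▸ htau (ν i)) h₂ hl (hz i) g

end AL

/-! ### the same over `K` -/

section K

variable (K : Type) [Field K] [Algebra K Kb]

theorem degHom_dgK_A (hl : l.Prime) (hA : 1 * (N * l) ∣ N * l * l) :
    degHom (dgK K (N * l) (N * l * l) 1 hA).toRingHom = l := by
  rw [degHom_dgK, degHom_A hl hA]

theorem degHom_dgK_B (hl : l.Prime) (hB : l * (N * l) ∣ N * l * l) :
    degHom (dgK K (N * l) (N * l * l) l hB).toRingHom = l := by
  rw [degHom_dgK, degHom_B hl hB]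

theorem degHom_dgK_0 (hl : l.Prime) (hN : ¬ l ∣ N) (e : ℕ) [NeZero e] (h : e * N ∣ N * l) :
    degHom (dgK K N (N * l) e h).toRingHom = l + 1 := by
  have h1 := psi_mul_degHom_dgK K N (N * l) e h
  rw [psi_mul_prime N l hl hN] at h1
  exact Nat.eq_of_mul_eq_mul_left (dedekindPsi_pos N) (by rw [h1]; ring)

theorem nmK_al (hl : l.Prime) (hA : 1 * (N * l) ∣ N * l * l)
    (y : modularFunctionFieldFullC K (N * l)) :
    nmK K (N * l) (N * l * l) 1 hA (dgK K (N * l) (N * l * l) 1 hA y) = y ^ l := by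
  rw [nmK_dgK, degHom_dgK_A K hl hA]

theorem nmK_be (hl : l.Prime) (hB : l * (N * l) ∣ N * l * l)
    (y : modularFunctionFieldFullC K (N * l)) :
    nmK K (N * l) (N * l * l) l hB (dgK K (N * l) (N * l * l) l hB y) = y ^ l := by
  rw [nmK_dgK, degHom_dgK_B K hl hB]

variable {ι : Type*} [Fintype ι] (z : ι → Qbˣ) (tau : ι → FF (N * l * l) →ₐ[Qb] LaurentSeries Qb)
  (ν : ι → ι) {μ : Type*} [Fintype μ] (zz : μ → Qbˣ)
  {w₁ : FF (N * l) →ₐ[Qb] FF (N * l)} {w₂ : FF (N * l * l) →ₐ[Qb] FF (N * l * l)}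

theorem NAinf (hl : l.Prime) (hA : 1 * (N * l) ∣ N * l * l) (hinj : Function.Injective z)
    (hcard : Fintype.card ι = l - 1) (htau : ∀ i, IsMid N l (z i) (tau i))
    (y : modularFunctionFieldFullC K (N * l * l)) :
    ((beta K (N * l) (nmK K (N * l) (N * l * l) 1 hA y) : FF (N * l)) : LaurentSeries Qb)
      = ((beta K (N * l * l) y : FF (N * l * l)) : LaurentSeries Qb)
        * ∏ i, tau i (beta K (N * l * l) y) := by
  rw [beta_nmK]
  exact coe_nmF_A z tau hl hA hinj hcard htau _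

theorem NBinf (hl : l.Prime) (hB : l * (N * l) ∣ N * l * l) (hzz : ∀ ζ, zz ζ ^ l = 1)
    (hinj : Function.Injective zz) (hcard : Fintype.card μ = l)
    (y : modularFunctionFieldFullC K (N * l * l)) :
    Vq Qb l ((beta K (N * l) (nmK K (N * l) (N * l * l) l hB y) : FF (N * l)) : LaurentSeries Qb)
      = ∏ ζ, twist (zz ζ) ((beta K (N * l * l) y : FF (N * l * l)) : LaurentSeries Qb) := by
  rw [beta_nmK]
  exact Vq_nmF_B zz hl hB hzz hinj hcard _

theorem NA0 (h₁ : IsAL N l w₁) (h₂ : IsAL2 N l w₂) (hl : l.Prime) (hN : ¬ l ∣ N)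
    (hA : 1 * (N * l) ∣ N * l * l) (hzz : ∀ ζ, zz ζ ^ l = 1) (hinj : Function.Injective zz)
    (hcard : Fintype.card μ = l) (y : modularFunctionFieldFullC K (N * l * l)) :
    Vq Qb l ((w₁ (beta K (N * l) (nmK K (N * l) (N * l * l) 1 hA y)) : FF (N * l)) :
        LaurentSeries Qb)
      = ∏ ζ, twist (zz ζ) ((w₂ (beta K (N * l * l) y) : FF (N * l * l)) : LaurentSeries Qb) := by
  rw [beta_nmK]
  exact Vq_w1_nmF_A zz h₁ h₂ hl hN hA hzz hinj hcard _

theorem NB0 (h₁ : IsAL N l w₁) (h₂ : IsAL2 N l w₂) (hl : l.Prime) (hN : ¬ l ∣ N)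
    (hB : l * (N * l) ∣ N * l * l) (hinj : Function.Injective z) (hcard : Fintype.card ι = l - 1)
    (htau : ∀ i, IsMid N l (z i) (tau i)) (hz : ∀ i, z i ^ l = 1) (hν : ∀ i, z (ν i) = (z i)⁻¹)
    (y : modularFunctionFieldFullC K (N * l * l)) :
    ((w₁ (beta K (N * l) (nmK K (N * l) (N * l * l) l hB y)) : FF (N * l)) : LaurentSeries Qb)
      = ((w₂ (beta K (N * l * l) y) : FF (N * l * l)) : LaurentSeries Qb)
        * ∏ i, twist (z i) (tau (ν i) (beta K (N * l * l) y)) := by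
  rw [beta_nmK]
  exact w1_nmF_B z tau ν h₁ h₂ hl hN hB hinj hcard htau hz hν _

end K

end

end Fermat.Agent.S36.Norm.KForm
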