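import Fermat.Agent.S36.Norm.KForm.Ident

/-!
# S36/Norm/KForm: `F_K(N l) = ⊕_{s ≤ l} F_K(N) j_l^s`, `F_K(N l²) = ⊕_{s < l²+l} F_K(N) j_{l²}^s`
-/

set_option autoImplicit false
set_option linter.style.haveILetI false
set_option linter.unusedSectionVars false

open AlgebraicCurve ModularCurve
open scoped IntermediateField

namespace Fermat.Agent.S36.Norm.KForm

open Fermat.Agent.ES Fermat.Agent.S24 Fermat.Agent.Crux.GT.PF

noncomputable section

section Abstract

variable {F E F₁ E₁ : Type*} [Field F] [Field E] [Field F₁] [Field E₁]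

/-- the powers `θ^s`, `s < n`, are independent over `F` (along `a`). -/
def PowIndep (a : F →+* E) (θ : E) (n : ℕ) : Prop :=
  ∀ c : ℕ → F, ∑ s ∈ Finset.range n, a (c s) * θ ^ s = 0 → ∀ s < n, c s = 0

/-- generation ⟹ independence of the first `[E:F]` powers. -/
theorem powIndep_of_gen (a : F →+* E) (ha : FinHom a) (θ : E)
    (hgen : ∀ C : Subfield E, (∀ x, a x ∈ C) → θ ∈ C → C = ⊤) : PowIndep a θ (degHom a) := by
  letI := a.toAlgebra
  haveI : FiniteDimensional F E := ha
  have htop : F⟮θ⟯ = ⊤ := by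
    have h1 := hgen F⟮θ⟯.toSubfield (fun x => F⟮θ⟯.algebraMap_mem x)
      (IntermediateField.mem_adjoin_simple_self F θ)
    rw [eq_top_iff]
    intro y _
    have : y ∈ F⟮θ⟯.toSubfield := by rw [h1]; trivial
    exact this
  have hdeg : (minpoly F θ).natDegree = Module.finrank F E :=
    (Field.primitive_element_iff_minpoly_natDegree_eq F θ).mp htop
  intro c hc s hs
  have hli := linearIndependent_pow (K := F) θ
  rw [Fintype.linearIndependent_iff] at hli
  have hs' : s < (minpoly F θ).natDegree := by rw [hdeg]; exact hs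
  refine hli (fun i => c i) ?_ ⟨s, hs'⟩
  rw [Fin.sum_univ_eq_sum_range (fun i => c i • θ ^ i) (minpoly F θ).natDegree, hdeg]
  rw [← hc]
  exact Finset.sum_congr rfl fun i _ => Algebra.smul_def _ _

/-- independence of `[E:F]` powers ⟹ they span. -/
theorem span_of_powIndep (a : F →+* E) (ha : FinHom a) (θ : E) (h : PowIndep a θ (degHom a))
    (y : E) : ∃ c : ℕ → F, y = ∑ s ∈ Finset.range (degHom a), a (c s) * θ ^ s := by
  letI := a.toAlgebra
  haveI : FiniteDimensional F E := ha
  have hli : LinearIndependent F (fun i : Fin (Module.finrank F E) => θ ^ (i : ℕ)) := by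
    rw [Fintype.linearIndependent_iff]
    intro g hg i
    have h1 := h (fun s => if hs : s < Module.finrank F E then g ⟨s, hs⟩ else 0) ?_ i i.2
    · simpa using h1
    · show ∑ s ∈ Finset.range (Module.finrank F E), _ = 0
      rw [← Fin.sum_univ_eq_sum_range
        (fun s => a (if hs : s < Module.finrank F E then g ⟨s, hs⟩ else 0) * θ ^ s)
        (Module.finrank F E), ← hg]
      refine Finset.sum_congr rfl fun i _ => ?_
      rw [dif_pos i.2, Algebra.smul_def]
      rfl
  haveI : Nonempty (Fin (Module.finrank F E)) := ⟨⟨0, Module.finrank_pos⟩⟩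
  let B := basisOfLinearIndependentOfCardEqFinrank hli (Fintype.card_fin _)
  have hB : ∀ i, B i = θ ^ (i : ℕ) := fun i => by
    rw [coe_basisOfLinearIndependentOfCardEqFinrank]
  refine ⟨fun s => if hs : s < Module.finrank F E then B.repr y ⟨s, hs⟩ else 0, ?_⟩
  show y = ∑ s ∈ Finset.range (Module.finrank F E), _
  rw [← Fin.sum_univ_eq_sum_range
    (fun s => a (if hs : s < Module.finrank F E then B.repr y ⟨s, hs⟩ else 0) * θ ^ s)
    (Module.finrank F E)]
  conv_lhs => rw [← B.sum_repr y]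
  refine Finset.sum_congr rfl fun i _ => ?_
  rw [dif_pos i.2, Algebra.smul_def, hB]
  rfl

/-- independence descends along a commutative square. -/
theorem PowIndep.descend (a : F →+* E) (b : F →+* F₁) (a₁ : F₁ →+* E₁) (b₁ : E →+* E₁)
    (hcomm : ∀ x, a₁ (b x) = b₁ (a x)) {θ : E} {n : ℕ} (h : PowIndep a₁ (b₁ θ) n) :
    PowIndep a θ n := by
  intro c hc s hs
  have h1 := h (fun s => b (c s)) (by
    have := congrArg b₁ hc
    rw [map_sum, map_zero] at this
    rw [← this]
    refine Finset.sum_congr rfl fun i _ => ?_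
    rw [map_mul, map_pow, hcomm]) s hs
  exact (map_eq_zero b).mp h1

end Abstract

variable (K : Type) [Field K] [Algebra K Kb]

/-- general form: `F_K(M) = ⊕_{s < deg} F_K(N) j_d^s` if `M ∣ lcm(N, d)`. -/
theorem span_jKd (N M d : ℕ) [NeZero N] [NeZero M] [NeZero d] (h : 1 * N ∣ M) (hd : d ∣ M)
    (hlcm : M ∣ Nat.lcm N d) (y : modularFunctionFieldFullC K M) :
    ∃ c : ℕ → modularFunctionFieldFullC K N,
      y = ∑ s ∈ Finset.range (degHom (dgK K N M 1 h).toRingHom),
        dgK K N M 1 h (c s) * jKd K M d hd ^ s := by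
  refine span_of_powIndep (dgK K N M 1 h).toRingHom (finHom_dgK K N M 1 h) (jKd K M d hd) ?_ y
  refine PowIndep.descend (dgK K N M 1 h).toRingHom (beta K N) (dg N M 1 h).toRingHom (beta K M)
    (fun x => (beta_dgK K N M 1 h x).symm) ?_
  rw [degHom_dgK, beta_jKd]
  refine powIndep_of_gen (dg N M 1 h).toRingHom (finHom_dg N M 1 h) _ ?_
  intro C hC hθ
  have hN : N ∣ M := by rwa [one_mul] at h
  refine subfield_eq_top_of_lcm M N d hN hd hlcm C ?_ ?_ ?_ hθ
  · intro c
    have := hC (algebraMap Qb (FF N) c)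
    rwa [show (dg N M 1 h).toRingHom (algebraMap Qb (FF N) c) = algebraMap Qb (FF M) c from
      (dg N M 1 h).commutes c] at this
  · have := hC (jN N)
    have e1 : (dg N M 1 h).toRingHom (jN N) = jN M := Subtype.ext (coe_dg_one _ _ _ _)
    rwa [e1] at this
  · have := hC (jF N N dvd_rfl)
    have e1 : (dg N M 1 h).toRingHom (jF N N dvd_rfl) = jF M N hN := by
      show dg N M 1 h (jF N N dvd_rfl) = _
      rw [dg_jF]
      exact jF_congr' M _ _ (one_mul N)
    rwa [e1] at this

variable {N l : ℕ} [NeZero N] [NeZero l]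

/-- **span1** -/
theorem span1 (hl : l.Prime) (hN : ¬ l ∣ N) (h0 : 1 * N ∣ N * l)
    (y : modularFunctionFieldFullC K (N * l)) :
    ∃ c : ℕ → modularFunctionFieldFullC K N,
      y = ∑ s ∈ Finset.range (l + 1),
        dgK K N (N * l) 1 h0 (c s) * jKd K (N * l) l (dvd_mul_left l N) ^ s := by
  have hcop : Nat.Coprime N l := ((Nat.Prime.coprime_iff_not_dvd hl).mpr hN).symm
  have := span_jKd K N (N * l) l h0 (dvd_mul_left l N) (by rw [hcop.lcm_eq_mul]) y
  rwa [degHom_dgK_0 K hl hN 1 h0] at this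

theorem degHom_dgK_02 (hl : l.Prime) (hN : ¬ l ∣ N) (h : 1 * N ∣ N * l * l) :
    degHom (dgK K N (N * l * l) 1 h).toRingHom = l ^ 2 + (l - 1) + 1 := by
  have h1 := psi_mul_degHom_dgK K N (N * l * l) 1 h
  have h0 : dedekindPsi (N * l * l) = l * dedekindPsi (N * l) := by
    rw [← psi_mul_prime_dvd (N * l) l hl (dvd_mul_left l N), mul_comm l (N * l)]
  rw [h0, psi_mul_prime N l hl hN] at h1
  have h2 : degHom (dgK K N (N * l * l) 1 h).toRingHom = l * (l + 1) :=
    Nat.eq_of_mul_eq_mul_left (dedekindPsi_pos N) (by rw [h1]; ring)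
  rw [h2]
  have := hl.pos
  obtain ⟨k, rfl⟩ : ∃ k, l = k + 1 := ⟨l - 1, by omega⟩
  simp only [Nat.add_sub_cancel]
  ring

/-- **span2** -/
theorem span2 (hl : l.Prime) (hN : ¬ l ∣ N) (h0 : 1 * N ∣ N * l) (hA : 1 * (N * l) ∣ N * l * l)
    (y : modularFunctionFieldFullC K (N * l * l)) :
    ∃ c : ℕ → modularFunctionFieldFullC K N,
      y = ∑ s ∈ Finset.range (l ^ 2 + (l - 1) + 1),
        dgK K (N * l) (N * l * l) 1 hA (dgK K N (N * l) 1 h0 (c s))
          * jKd K (N * l * l) (l * l) ⟨N, by ring⟩ ^ s := by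
  have hcop : Nat.Coprime N (l * l) := by
    have h1 : Nat.Coprime N l := ((Nat.Prime.coprime_iff_not_dvd hl).mpr hN).symm
    exact Nat.Coprime.mul_right h1 h1
  have h : 1 * N ∣ N * l * l := by rw [one_mul, mul_assoc]; exact dvd_mul_right _ _
  obtain ⟨c, hc⟩ := span_jKd K N (N * l * l) (l * l) h ⟨N, by ring⟩
    (by rw [hcop.lcm_eq_mul, mul_assoc]) y
  rw [degHom_dgK_02 K hl hN h] at hc
  refine ⟨c, hc.trans (Finset.sum_congr rfl fun s _ => ?_)⟩
  congr 1
  apply Subtype.ext
  simp only [coe_dgK, qExpand_one_apply]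

end

end Fermat.Agent.S36.Norm.KForm
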