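import Fermat.Agent.S36.Norm.KForm.Basic

/-!
# S36/Norm/KForm: (Ke) degeneracy maps, degrees and norms over `K`

* `dgK K N M e h : F_K(N) →ₐ[K] F_K(M)`, `f(q) ↦ f(q^e)`;
* `beta_dgK`       : `β ∘ dgK = dg ∘ β`;
* `finHom_dgK`, `degHom_dgK` : `[F_K(M) : F_K(N)] = [FF M : FF N]`;
* `beta_normHom_dgK` : `β (N_K f) = nmF (β f)`.
-/

set_option autoImplicit false
set_option linter.style.haveILetI false
set_option linter.unusedSectionVars false

open AlgebraicCurve ModularCurve
open scoped IntermediateField

namespace Fermat.Agent.S36.Norm.KForm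

open Fermat.Agent.ES Fermat.Agent.S24 Fermat.Agent.Crux.GT.PF

noncomputable section

/-! ### abstract lemmas -/

section Abstract

variable {F E F₁ E₁ : Type*} [Field F] [Field E] [Field F₁] [Field E₁]

/-- In a square with `E₁ = F₁ · E` the degree does not increase. -/
theorem degHom_le_of_gen (a : F →+* E) (b : F →+* F₁) (a₁ : F₁ →+* E₁) (b₁ : E →+* E₁)
    (hcomm : ∀ x, a₁ (b x) = b₁ (a x)) (ha : FinHom a) (ha₁ : FinHom a₁)
    (hgen : ∀ C : Subfield E₁, (∀ x, a₁ x ∈ C) → (∀ y, b₁ y ∈ C) → C = ⊤) :
    degHom a₁ ≤ degHom a := by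
  classical
  letI := a.toAlgebra
  letI := a₁.toAlgebra
  haveI : Module.Finite F E := ha
  haveI : Module.Finite F₁ E₁ := ha₁
  have hsm : ∀ (c : F) (y : E), b₁ (c • y) = b c • b₁ y := by
    intro c y
    rw [Algebra.smul_def, Algebra.smul_def, map_mul]
    congr 1
    exact (hcomm c).symm
  let bs := Module.finBasis F E
  let v : Fin (Module.finrank F E) → E₁ := fun i => b₁ (bs i)
  have hb₁ : ∀ y : E, b₁ y = ∑ i, b (bs.repr y i) • v i := by
    intro y
    conv_lhs => rw [← bs.sum_repr y]
    rw [map_sum]
    exact Finset.sum_congr rfl fun i _ => hsm _ _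
  let S : Submodule F₁ E₁ := Submodule.span F₁ (Set.range v)
  have hbS : ∀ y : E, b₁ y ∈ S := by
    intro y
    rw [hb₁]
    exact Submodule.sum_mem _ fun i _ => Submodule.smul_mem _ _ (Submodule.subset_span ⟨i, rfl⟩)
  have hmul : ∀ p ∈ S, ∀ q ∈ S, p * q ∈ S := by
    intro p hp q hq
    induction hp using Submodule.span_induction with
    | mem p hp =>
      obtain ⟨i, rfl⟩ := hp
      induction hq using Submodule.span_induction with
      | mem q hq =>
        obtain ⟨j, rfl⟩ := hq
        show b₁ (bs i) * b₁ (bs j) ∈ S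
        rw [← map_mul]
        exact hbS _
      | zero => rw [mul_zero]; exact S.zero_mem
      | add q q' _ _ h h' => rw [mul_add]; exact S.add_mem h h'
      | smul c q _ h => rw [mul_smul_comm]; exact S.smul_mem c h
    | zero => rw [zero_mul]; exact S.zero_mem
    | add p p' _ _ h h' => rw [add_mul]; exact S.add_mem h h'
    | smul c p _ h => rw [smul_mul_assoc]; exact S.smul_mem c h
  have hone : (1 : E₁) ∈ S := by
    have := hbS 1
    rwa [map_one] at this
  let A : Subalgebra F₁ E₁ := S.toSubalgebra hone (fun p q hp hq => hmul p hp q hq)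
  have hAfield : IsField A := Subalgebra.isField_of_algebraic A
  let C : Subfield E₁ :=
    { A.toSubring with
      inv_mem' := by
        intro z hz
        by_cases h0 : z = 0
        · subst h0
          rw [inv_zero]
          exact hz
        · obtain ⟨y, hy⟩ := hAfield.mul_inv_cancel (a := (⟨z, hz⟩ : A))
            (fun h => h0 (congrArg Subtype.val h))
          have h1 : z * (y : E₁) = 1 := congrArg Subtype.val hy
          have h2 : z⁻¹ = (y : E₁) := (eq_inv_of_mul_eq_one_right h1).symm
          rw [h2]
          exact y.2 }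
  have hC : C = ⊤ := by
    apply hgen
    · intro z
      have : a₁ z = z • (1 : E₁) := by rw [Algebra.smul_def, mul_one]; rfl
      rw [this]
      exact S.smul_mem z hone
    · exact hbS
  have htop : Submodule.span F₁ (Set.range v) = ⊤ := by
    rw [eq_top_iff]
    intro z _
    have : z ∈ C := by rw [hC]; trivial
    exact this
  show Module.finrank F₁ E₁ ≤ Module.finrank F E
  have h1 := finrank_range_le_card (R := F₁) v
  rw [Set.finrank, htop, finrank_top, Fintype.card_fin] at h1
  exact h1

theorem exists_PI_basis {k E : Type*} [Field k] [Field E] [Algebra k E] (t : E)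
    [FiniteDimensional k⟮t⟯ E] : ∃ b : Fin (Module.finrank k⟮t⟯ E) → E, PI k t b :=
  ⟨Module.finBasis k⟮t⟯ E,
    (linearIndependent_iff_PI k t _).mp (Module.finBasis k⟮t⟯ E).linearIndependent⟩

theorem card_le_finrank_of_PI {k E ι : Type*} [Field k] [Field E] [Algebra k E] [Fintype ι] (t : E)
    [FiniteDimensional k⟮t⟯ E] (b : ι → E) (hb : PI k t b) :
    Fintype.card ι ≤ Module.finrank k⟮t⟯ E :=
  ((linearIndependent_iff_PI k t b).mpr hb).fintype_card_le_finrank

end Abstract

variable (K : Type) [Field K] [Algebra K Kb]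

/-- `β` preserves independence over `K(t)`, any `t`. -/
theorem PI_beta (M : ℕ) [NeZero M] (t : modularFunctionFieldFullC K M) {ι : Type*}
    (b : ι → modularFunctionFieldFullC K M) (h : PI K t b) :
    PI Kb (beta K M t) (fun i => beta K M (b i)) := by
  rw [← PI_map_iff (modularFunctionFieldFullC K M).val] at h
  rw [← PI_map_iff (modularFunctionFieldBar M).val]
  exact S28.polyIndep_coeffMap_aux (K := Kb) (t : LaurentSeries K)
    (fun i => ((b i : modularFunctionFieldFullC K M) : LaurentSeries K)) h

theorem VqK_mem {N M e : ℕ} [NeZero N] [NeZero M] [NeZero e] (h : e * N ∣ M) {x : LaurentSeries K}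
    (hx : x ∈ modularFunctionFieldFullC K N) : qExpand K e x ∈ modularFunctionFieldFullC K M := by
  have h1 := full_degeneracyC_map_le K N e
  have h2 : modularFunctionFieldFullC K (N * e) ≤ modularFunctionFieldFullC K M :=
    full_degeneracyC_le K (by rwa [mul_comm])
  exact h2 (h1 ⟨x, hx, rfl⟩)

/-- The degeneracy map `f(q) ↦ f(q^e)` over `K`. -/
def dgK (N M e : ℕ) [NeZero N] [NeZero M] [NeZero e] (h : e * N ∣ M) :
    modularFunctionFieldFullC K N →ₐ[K] modularFunctionFieldFullC K M where
  toFun f := ⟨qExpand K e (f : LaurentSeries K), VqK_mem K h f.2⟩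
  map_one' := Subtype.ext (map_one (qExpand K e))
  map_mul' _ _ := Subtype.ext (map_mul (qExpand K e) _ _)
  map_zero' := Subtype.ext (map_zero (qExpand K e))
  map_add' _ _ := Subtype.ext (map_add (qExpand K e) _ _)
  commutes' a := Subtype.ext ((qExpandAlgHomC K e).commutes a)

variable (N M e : ℕ) [NeZero N] [NeZero M] [NeZero e] (h : e * N ∣ M)

@[simp]
theorem coe_dgK (f : modularFunctionFieldFullC K N) :
    ((dgK K N M e h f : modularFunctionFieldFullC K M) : LaurentSeries K)
      = qExpand K e (f : LaurentSeries K) := rfl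

theorem beta_dgK (f : modularFunctionFieldFullC K N) :
    beta K M (dgK K N M e h f) = dg N M e h (beta K N f) := by
  apply Subtype.ext
  rw [beta_coe, coe_dgK, coe_dg, beta_coe]
  exact coeffMap_qExpand _ _ _

theorem transcendental_jK : Transcendental K (jK K N) := fun h' =>
  S28.transcendental_jqModC K ((IntermediateField.isAlgebraic_iff).mp h')

theorem transcendental_dgK_jK : Transcendental K (dgK K N M e h (jK K N)) := fun h' =>
  transcendental_jK K N
    ((isAlgebraic_algHom_iff (dgK K N M e h) (dgK K N M e h).injective).mp h')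

theorem finiteDimensional_dgK_jK :
    FiniteDimensional K⟮dgK K N M e h (jK K N)⟯ (modularFunctionFieldFullC K M) := by
  haveI := (finrank_F0 K M).1
  exact S24.FF.finiteDimensional_of_transcendental K (jK K M) (transcendental_dgK_jK K N M e h)

theorem finHom_dgK : FinHom (dgK K N M e h).toRingHom := by
  haveI := finiteDimensional_dgK_jK K N M e h
  exact (H1Degree.finite_and_finrank (dgK K N M e h) (jK K N)).1

theorem degHom_dgK : degHom (dgK K N M e h).toRingHom = degHom (dg N M e h).toRingHom := by
  apply le_antisymm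
  · -- by linear independence
    haveI := finiteDimensional_dgK_jK K N M e h
    have hK := (H1Degree.finite_and_finrank (dgK K N M e h) (jK K N)).2
    have htr : Transcendental Qb (dg N M e h (S24.jN N)) := fun h' =>
      S24.transcendental_jN N
        ((isAlgebraic_algHom_iff (dg N M e h) (dg N M e h).injective).mp h')
    haveI := S24.finiteDimensional_FN M
    haveI : FiniteDimensional Qb⟮dg N M e h (S24.jN N)⟯ (FF M) :=
      S24.FF.finiteDimensional_of_transcendental Qb (S24.jN M) htr
    have hQ := (H1Degree.finite_and_finrank (dg N M e h) (S24.jN N)).2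
    rw [(finrank_F0 K N).2] at hK
    rw [S24.finrank_FN] at hQ
    obtain ⟨b, hb⟩ := exists_PI_basis (k := K) (dgK K N M e h (jK K N))
    have hb' := PI_beta K M _ b hb
    rw [beta_dgK, beta_jK] at hb'
    have hle := card_le_finrank_of_PI _ _ hb'
    rw [Fintype.card_fin, ← hK, ← hQ] at hle
    have hpos : 0 < Nat.card (XN N) := by
      rw [← S24.finrank_FN N]
      haveI := S24.finiteDimensional_FN N
      exact Module.finrank_pos
    exact Nat.le_of_mul_le_mul_left hle hpos
  · refine degHom_le_of_gen (dgK K N M e h).toRingHom (beta K N) (dg N M e h).toRingHom (beta K M)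
      (fun x => (beta_dgK K N M e h x).symm) (finHom_dgK K N M e h) (finHom_dg N M e h) ?_
    intro C h₁ h₂
    refine subfield_eq_top_of_beta K M C h₂ fun c => ?_
    have := h₁ (algebraMap Qb (FF N) c)
    rwa [show (dg N M e h).toRingHom (algebraMap Qb (FF N) c) = algebraMap Qb (FF M) c from
      (dg N M e h).commutes c] at this

/-- the norm `F_K(M) → F_K(N)` along `f(q) ↦ f(q^e)`. -/
def nmK : modularFunctionFieldFullC K M →* modularFunctionFieldFullC K N :=
  normHom (dgK K N M e h).toRingHom

/-- **(Ke)** -/
theorem beta_nmK (f : modularFunctionFieldFullC K M) :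
    beta K N (nmK K N M e h f) = nmF N M e h (beta K M f) := by
  refine (normHom_baseChange (dgK K N M e h).toRingHom (beta K N) (dg N M e h).toRingHom
    (beta K M) (fun x => (beta_dgK K N M e h x).symm) (finHom_dgK K N M e h) (finHom_dg N M e h)
    (degHom_dgK K N M e h).symm ?_ f).symm
  intro C h₁ h₂
  refine subfield_eq_top_of_beta K M C h₂ fun c => ?_
  have := h₁ (algebraMap Qb (FF N) c)
  rwa [show (dg N M e h).toRingHom (algebraMap Qb (FF N) c) = algebraMap Qb (FF M) c from
    (dg N M e h).commutes c] at this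

theorem psi_mul_degHom_dgK :
    dedekindPsi N * degHom (dgK K N M e h).toRingHom = dedekindPsi M := by
  rw [degHom_dgK]; exact degHom_dg N M e h

theorem nmK_dgK (f : modularFunctionFieldFullC K N) :
    nmK K N M e h (dgK K N M e h f) = f ^ degHom (dgK K N M e h).toRingHom :=
  normHom_map (dgK K N M e h).toRingHom f

theorem nmK_ne_zero {f : modularFunctionFieldFullC K M} (hf : f ≠ 0) : nmK K N M e h f ≠ 0 :=
  normHom_ne_zero _ (finHom_dgK K N M e h) hf

end

end Fermat.Agent.S36.Norm.KForm
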