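import Fermat.Agent.S36.Norm.KForm.Main
import Fermat.Agent.S36.Top.Glue

/-!
# S36/Norm/KForm: auxiliary level, and `NoInvNm` from the statement over the inertia field

* `noInvNm_of_dvd` : `N ∣ N'`, `l ∤ N'`: `NoInvNm N' l p → NoInvNm N l p` (the constant is multiplied by the degree);
* `noInvNm_of_aux` : it is enough to prove `NoInvNm N l p` when `4 ∣ N` (`l ≠ 2`) resp. `9 ∣ N` (`l = 2`);
* `noInvNm_of_NoInvK` : `NoInvNm N l p` from `NoInvK (L0 A) (N l) (N l l) l _ _ (p^n) c` for all `n`.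
-/

set_option autoImplicit false
set_option linter.style.haveILetI false
set_option linter.unusedSectionVars false

open AlgebraicCurve ModularCurve

namespace Fermat.Agent.S36.Norm.KForm

open Fermat.Agent.ES Fermat.Agent.S24 Fermat.Agent.S36.Base Fermat.Agent.S36.Top

theorem psi_level (N l : ℕ) [NeZero N] [NeZero l] (hl : l.Prime) :
    dedekindPsi (N * l * l) = l * dedekindPsi (N * l) := by
  rw [← psi_mul_prime_dvd (N * l) l hl (dvd_mul_left l N), mul_comm l (N * l)]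

theorem noInvNm_of_dvd (N N' l p : ℕ) [NeZero N] [NeZero N'] [NeZero l] (hl : l.Prime)
    (hNN' : N ∣ N') (hlN' : ¬ l ∣ N') (H : NoInvNm N' l p) : NoInvNm N l p := by
  obtain ⟨A, c, hA, hc0, hc⟩ := H
  have hb : 1 * (N * l) ∣ N' * l := by rw [one_mul]; exact mul_dvd_mul_right hNN' l
  have hb₁ : 1 * (N * l * l) ∣ N' * l * l := by
    rw [one_mul]; exact mul_dvd_mul_right (mul_dvd_mul_right hNN' l) l
  have hdeg : dedekindPsi (N' * l * l) * dedekindPsi (N * l)
      = dedekindPsi (N * l * l) * dedekindPsi (N' * l) := by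
    rw [psi_level N l hl, psi_level N' l hl]; ring
  have hlcm : N' * l * l ∣ Nat.lcm (N' * l) (N * l * l) := by
    rw [mul_assoc]
    have hcop : Nat.Coprime N' (l * l) := by
      have h1 : Nat.Coprime N' l := ((Nat.Prime.coprime_iff_not_dvd hl).mpr hlN').symm
      exact Nat.Coprime.mul_right h1 h1
    refine hcop.mul_dvd_of_dvd_of_dvd ?_ ?_
    · exact (dvd_mul_right N' l).trans (Nat.dvd_lcm_left _ _)
    · exact (Dvd.intro_left N (by ring)).trans (Nat.dvd_lcm_right _ _)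
  refine ⟨A, c * degHom (dg (N * l * l) (N' * l * l) 1 hb₁).toRingHom, hA,
    mul_ne_zero hc0 (degHom_pos (finHom_dg _ _ _ hb₁)).ne', ?_⟩
  intro n x hx hxA hxB
  have h1 := hc n (Pb (N * l * l) (N' * l * l) 1 hb₁ (p ^ n) x) ?_ ?_ ?_
  · have h2 := congrArg (Nm (N * l * l) (N' * l * l) 1 hb₁ (p ^ n)) h1
    rw [map_nsmul, Nm_Pb, map_zero, smul_smul] at h2
    exact h2
  · intro σ hσ
    rw [galKum_Pb, hx σ hσ]
  · rw [Nm_Pb_one (N * l) (N * l * l) (N' * l) (N' * l * l) (p ^ n) (dvdA N l) hb (dvdA N' l) hb₁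
      hdeg hlcm, hxA, map_zero]
  · rw [Nm_Pb_top (N * l) (N * l * l) (N' * l) (N' * l * l) l (p ^ n) (dvdB N l) hb (dvdB N' l) hb₁
      hdeg (by ring), hxB, map_zero]

/-- reduction to the auxiliary level. -/
theorem noInvNm_of_aux
    (H : ∀ (N l p : ℕ) [NeZero N] [NeZero l], l.Prime → p.Prime → l ≠ p → ¬ l ∣ N →
      (l ≠ 2 → 4 ∣ N) → (l = 2 → 9 ∣ N) → NoInvNm N l p)
    (N l p : ℕ) [NeZero N] [NeZero l] (hl : l.Prime) (hp : p.Prime) (hlp : l ≠ p)
    (hlN : ¬ l ∣ N) : NoInvNm N l p := by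
  by_cases h2 : l = 2
  · haveI : NeZero (N * 9) := ⟨mul_ne_zero (NeZero.ne N) (by norm_num)⟩
    have hl9 : ¬ l ∣ N * 9 := by
      intro h
      rcases (Nat.Prime.dvd_mul hl).mp h with h | h
      · exact hlN h
      · rw [h2] at h; omega
    exact noInvNm_of_dvd N (N * 9) l p hl (dvd_mul_right N 9) hl9
      (H (N * 9) l p hl hp hlp hl9 (fun h => absurd h2 h) (fun _ => dvd_mul_left 9 N))
  · haveI : NeZero (N * 4) := ⟨mul_ne_zero (NeZero.ne N) (by norm_num)⟩
    have hl4 : ¬ l ∣ N * 4 := by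
      intro h
      rcases (Nat.Prime.dvd_mul hl).mp h with h | h
      · exact hlN h
      · have h4 : l ∣ 2 ^ 2 := by norm_num; exact h
        exact h2 ((Nat.prime_dvd_prime_iff_eq hl Nat.prime_two).mp (hl.dvd_of_dvd_pow h4))
    exact noInvNm_of_dvd N (N * 4) l p hl (dvd_mul_right N 4) hl4
      (H (N * 4) l p hl hp hlp hl4 (fun _ => dvd_mul_left 4 N) (fun h => absurd h h2))

/-- `NoInvNm` from the statement over the inertia field. -/
theorem noInvNm_of_NoInvK (N l p : ℕ) [NeZero N] [NeZero l] (hp : p.Prime)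
    (A : ValuationSubring Qb) (hA : A.LiesOverPrime l) (c : ℕ) (hc : c ≠ 0)
    (H : ∀ n : ℕ, NoInvK (L0 A) (N * l) (N * l * l) l (dvdA N l) (dvdB N l) (p ^ n) c) :
    NoInvNm N l p :=
  ⟨A, c, hA, hc, fun n x hx hxA hxB =>
    smul_eq_zero_of_inertia A (N * l) (N * l * l) l (dvdA N l) (dvdB N l)
      (pow_ne_zero n hp.ne_zero) c (H n) x hx hxA hxB⟩

end Fermat.Agent.S36.Norm.KForm
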