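import Fermat.Agent.S36.Norm.QExp
import Fermat.Agent.Crux.GT.PF.Deg

/-!
# S36/Norm/KForm: dictionary between `F_K(M) = modularFunctionFieldFullC K M` and `FF M`

`K` any field with `[Algebra K Kb]`; `β = Crux.GT.PF.beta K M : F_K(M) →+* FF M`.

* `mem_fullC_of_coeffMap_mem` : `f₀ ∈ K((q))` with `coeffMap f₀ ∈ FF M` lies in `F_K(M)`;
* `exists_beta_eq`            : `f ∈ FF M` with all `q`-coefficients in `K` is `β f₀`;
* `subfield_eq_top_of_beta`   : `FF M = β(F_K(M)) · Kb`.
-/

set_option autoImplicit false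
set_option linter.style.haveILetI false
set_option linter.unusedSectionVars false

open AlgebraicCurve ModularCurve
open scoped IntermediateField

namespace Fermat.Agent.S36.Norm.KForm

open Fermat.Agent.ES Fermat.Agent.S24 Fermat.Agent.Crux.GT.PF

noncomputable section

variable (K : Type) [Field K] [Algebra K Kb] (M : ℕ) [NeZero M]

theorem beta_injective : Function.Injective (beta K M) := (beta K M).injective

/-- a series over `Kb` with coefficients in `K` comes from `K((q))`. -/
theorem exists_coeffMap_eq (f : LaurentSeries Kb)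
    (h : ∀ n, f.coeff n ∈ (algebraMap K Kb).range) :
    ∃ f₀ : LaurentSeries K, coeffMap (algebraMap K Kb) f₀ = f := by
  choose c hc using h
  have hsupp : Function.support c = f.support := by
    ext n
    rw [Function.mem_support, HahnSeries.mem_support, ← hc n, Ne, Ne, map_eq_zero]
  refine ⟨⟨c, by rw [hsupp]; exact f.isPWO_support⟩, ?_⟩
  ext n
  rw [coeffMap_coeff]
  exact hc n

/-- abstract step: a basis of `F₀` over `k(t)` together with an element outside `F₀` is independent. -/
theorem exists_PI_option {k E : Type*} [Field k] [Field E] [Algebra k E]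
    (F₀ : IntermediateField k E) (t : F₀) [FiniteDimensional k⟮t⟯ F₀] {f₀ : E} (hf₀ : f₀ ∉ F₀) :
    ∃ b : Fin (Module.finrank k⟮t⟯ F₀) → F₀,
      PI k (t : E) (fun o : Option (Fin (Module.finrank k⟮t⟯ F₀)) =>
        o.casesOn' f₀ (fun i => ((b i : F₀) : E))) := by
  classical
  let b := Module.finBasis k⟮t⟯ F₀
  refine ⟨b, ?_⟩
  have hb : PI k t b := (linearIndependent_iff_PI k t b).mp b.linearIndependent
  have hb' : PI k (t : E) (fun i => ((b i : F₀) : E)) := (PI_map_iff F₀.val t b).mpr hb
  have hv : LinearIndependent k⟮(t : E)⟯ (fun i => ((b i : F₀) : E)) :=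
    (linearIndependent_iff_PI k (t : E) _).mpr hb'
  have hle : k⟮(t : E)⟯ ≤ F₀ := by
    rw [IntermediateField.adjoin_le_iff]
    intro y hy
    rw [Set.mem_singleton_iff] at hy
    subst hy
    exact t.2
  have hspan : ∀ y ∈ Submodule.span k⟮(t : E)⟯ (Set.range (fun i => ((b i : F₀) : E))),
      y ∈ F₀ := by
    intro y hy
    induction hy using Submodule.span_induction with
    | mem y hy => obtain ⟨i, rfl⟩ := hy; exact (b i).2
    | zero => exact zero_mem _
    | add y z _ _ hy hz => exact add_mem hy hz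
    | smul c y _ hy =>
      rw [Algebra.smul_def]
      exact mul_mem (hle c.2) hy
  have hopt : LinearIndependent k⟮(t : E)⟯ (fun o : Option (Fin (Module.finrank k⟮t⟯ F₀)) =>
        o.casesOn' f₀ (fun i => ((b i : F₀) : E))) :=
    linearIndependent_option.mpr ⟨hv, fun hmem => hf₀ (hspan _ hmem)⟩
  exact (linearIndependent_iff_PI k (t : E) _).mp hopt

/-- **(Kc)** -/
theorem mem_fullC_of_coeffMap_mem {f₀ : LaurentSeries K}
    (h : coeffMap (algebraMap K Kb) f₀ ∈ modularFunctionFieldBar M) :
    f₀ ∈ modularFunctionFieldFullC K M := by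
  classical
  by_contra hf₀
  obtain ⟨hfin, hrank⟩ := finrank_F0 K M
  obtain ⟨b, hopt⟩ := exists_PI_option (modularFunctionFieldFullC K M) (jK K M) hf₀
  have h2 := S28.polyIndep_coeffMap_aux (K := Kb) (jqModC K) _ hopt
  let y : Option (Fin (Module.finrank K⟮jK K M⟯ (modularFunctionFieldFullC K M))) → FN M :=
    fun o => o.casesOn' ⟨_, h⟩ (fun i => beta K M (b i))
  have hj : (modularFunctionFieldBar M).val (jN M) = coeffMap (algebraMap K Kb) (jqModC K) := by
    rw [← beta_jK K M]
    rfl
  have hy : PI Kb (jN M) y := by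
    rw [← PI_map_iff (modularFunctionFieldBar M).val, hj]
    have hfun : (fun o => (modularFunctionFieldBar M).val (y o))
        = fun o : Option (Fin (Module.finrank K⟮jK K M⟯ (modularFunctionFieldFullC K M))) =>
          coeffMap (algebraMap K Kb) (o.casesOn' f₀ fun i => ((b i : _) : LaurentSeries K)) := by
      funext o
      cases o <;> rfl
    rw [hfun]
    exact h2
  have hy' := (linearIndependent_iff_PI Kb (jN M) y).mpr hy
  haveI := S24.finiteDimensional_FN M
  have h3 := hy'.fintype_card_le_finrank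
  rw [S24.finrank_FN, Fintype.card_option, Fintype.card_fin, hrank] at h3
  omega

/-- **(Kc)**, elementwise form. -/
theorem exists_beta_eq (f : FF M)
    (h : ∀ n, (f : LaurentSeries Qb).coeff n ∈ (algebraMap K Kb).range) :
    ∃ f₀ : modularFunctionFieldFullC K M, beta K M f₀ = f := by
  obtain ⟨f₀, hf₀⟩ := exists_coeffMap_eq K (f : LaurentSeries Qb) h
  exact ⟨⟨f₀, mem_fullC_of_coeffMap_mem K M (by rw [hf₀]; exact f.2)⟩, Subtype.ext hf₀⟩

theorem beta_coeff (f : modularFunctionFieldFullC K M) (n : ℤ) :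
    ((beta K M f : FN M) : LaurentSeries Kb).coeff n
      = algebraMap K Kb ((f : LaurentSeries K).coeff n) := rfl

/-- `j(q^d)` in `F_K(M)`. -/
def jKd (d : ℕ) [NeZero d] (hd : d ∣ M) : modularFunctionFieldFullC K M :=
  ⟨qExpand K d (jqModC K), jqModCd_mem_full K M hd⟩

theorem beta_jKd (d : ℕ) [NeZero d] (hd : d ∣ M) : beta K M (jKd K M d hd) = jF M d hd := by
  apply Subtype.ext
  rw [beta_coe]
  show coeffMap (algebraMap K Kb) (qExpand K d (jqModC K)) = _
  rw [coeffMap_qExpand, coeffMap_jqModC]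
  exact (S17.IsFFAux.coeffEmb_qExpand_jq Kb d).symm

/-- `FF M` is generated by `β(F_K(M))` and the constants. -/
theorem subfield_eq_top_of_beta (C : Subfield (FF M)) (h₁ : ∀ x, beta K M x ∈ C)
    (h₂ : ∀ c : Qb, algebraMap Qb (FF M) c ∈ C) : C = ⊤ := by
  refine subfield_eq_top M Set.univ (fun g hg => hg ⟨M, dvd_rfl⟩ trivial) C h₂ ?_ ?_
  · rw [← beta_jK K M]; exact h₁ _
  · intro d _
    haveI : NeZero d.1 := ⟨fun h0 => NeZero.ne M (Nat.eq_zero_of_zero_dvd (h0 ▸ d.2))⟩
    rw [← beta_jKd K M d.1 d.2]; exact h₁ _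

end

end Fermat.Agent.S36.Norm.KForm
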