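import Fermat.Agent.S36.Norm.KForm.Ord
import Fermat.Agent.S36.Base.Descent

/-!
# S36/Norm/KForm: (Kf) `m`-th roots descend from `FF N` to `F_K(N)`

`β y = c · g^m` (`c ∈ Kb`, `g ∈ FF N`)  ⟹  `y = c' · g'^m` with `c' ∈ K`, `g' ∈ F_K(N)`.
-/

set_option autoImplicit false
set_option linter.style.haveILetI false
set_option linter.unusedSectionVars false

open AlgebraicCurve ModularCurve
open scoped IntermediateField

namespace Fermat.Agent.S36.Norm.KForm

open Fermat.Agent.ES Fermat.Agent.S24 Fermat.Agent.Crux.GT.PF Fermat.Agent.S36.Base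

noncomputable section

variable (K : Type) [Field K] [Algebra K Kb]

/-- a `K`-automorphism of `Kb` as an element of `G_ℚ`. -/
def toGQ (σ : Kb ≃ₐ[K] Kb) : GQ :=
  AlgEquiv.ofRingEquiv (f := σ.toRingEquiv) (fun r => by
    rw [eq_ratCast]; exact map_ratCast σ.toRingEquiv r)

theorem toGQ_apply (σ : Kb ≃ₐ[K] Kb) (x : Kb) : toGQ K σ x = σ x := rfl

theorem isGalois_K : IsGalois K Kb := by
  haveI := charZero_K K
  haveI := isAlgebraic_K K
  haveI : IsAlgClosure K Kb := ⟨inferInstance, inferInstance⟩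
  exact IsAlgClosure.isGalois K Kb

theorem mem_range_of_fixed (x : Kb) (h : ∀ σ : Kb ≃ₐ[K] Kb, σ x = x) :
    x ∈ (algebraMap K Kb).range := by
  haveI := isGalois_K K
  exact (InfiniteGalois.mem_range_algebraMap_iff_fixed x).mpr h

variable (N : ℕ) [NeZero N]

theorem galF_beta (σ : Kb ≃ₐ[K] Kb) (y : modularFunctionFieldFullC K N) :
    galF N (toGQ K σ) (beta K N y) = beta K N y := by
  apply Subtype.ext
  ext n
  rw [coe_galF, coeffMap_coeff, beta_coeff]
  exact σ.commutes _

/-- a function fixed by `Gal(Kb/K)` comes from `F_K(N)`. -/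
theorem exists_beta_eq_of_fixed (g : FF N) (h : ∀ σ : Kb ≃ₐ[K] Kb, galF N (toGQ K σ) g = g) :
    ∃ g' : modularFunctionFieldFullC K N, beta K N g' = g := by
  refine exists_beta_eq K N g fun n => mem_range_of_fixed K _ fun σ => ?_
  have := congrArg (fun u : FF N => (u : LaurentSeries Qb).coeff n) (h σ)
  rw [← toGQ_apply]
  simpa [coe_galF] using this

/-- **(Kf)** -/
theorem exists_root_K {m : ℕ} (hm : m ≠ 0) (y : modularFunctionFieldFullC K N) (hy : y ≠ 0)
    (c : Qb) (g : FF N) (h : beta K N y = algebraMap Qb (FF N) c * g ^ m) :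
    ∃ (c' : K) (g' : modularFunctionFieldFullC K N),
      y = algebraMap K (modularFunctionFieldFullC K N) c' * g' ^ m := by
  have hy' : beta K N y ≠ 0 := fun h0 => hy ((map_eq_zero (beta K N)).mp h0)
  have hg : g ≠ 0 := by
    rintro rfl
    rw [zero_pow hm, mul_zero] at h
    exact hy' h
  have hlg : lc g ≠ 0 := lc_ne_zero hg
  -- normalise
  set g₁ : FF N := algebraMap Qb (FF N) (lc g)⁻¹ * g with hg₁
  have hg₁lc : lc g₁ = 1 := by rw [hg₁, lc_mul, lc_algebraMap, inv_mul_cancel₀ hlg]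
  have hg₁0 : g₁ ≠ 0 := by
    rintro h0
    rw [h0] at hg₁lc
    have h00 : lc (0 : FF N) = 0 := HahnSeries.leadingCoeff_eq_zero.mpr rfl
    rw [h00] at hg₁lc
    exact zero_ne_one hg₁lc
  have h1 : beta K N y = algebraMap Qb (FF N) (lc (beta K N y)) * g₁ ^ m := by
    have e1 : lc (beta K N y) = c * lc g ^ m := by rw [h, lc_mul, lc_algebraMap, lc_pow]
    rw [e1, hg₁, mul_pow, ← map_pow, ← mul_assoc, ← map_mul, inv_pow, mul_assoc,
      mul_inv_cancel₀ (pow_ne_zero _ hlg), mul_one]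
    exact h
  obtain ⟨a, ha⟩ : ∃ a : K, algebraMap K Kb a = lc (beta K N y) :=
    ⟨(y : LaurentSeries K).coeff (od (beta K N y)), by
      rw [← beta_coeff]; exact HahnSeries.leadingCoeff_eq.symm⟩
  rw [← ha, ← beta_algebraMap] at h1
  have ha0 : beta K N (algebraMap K (modularFunctionFieldFullC K N) a) ≠ 0 := by
    intro h0
    rw [h0, zero_mul] at h1
    exact hy' h1
  obtain ⟨g', hg'⟩ := exists_beta_eq_of_fixed K N g₁ (by
    intro σ
    apply eq_of_pow_eq hm hg₁0 _ (by rw [lc_galF, hg₁lc, map_one]) hg₁lc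
    have h2 := congrArg (galF N (toGQ K σ)) h1
    rw [map_mul, map_pow, galF_beta, galF_beta] at h2
    exact mul_left_cancel₀ ha0 (h2.symm.trans h1))
  refine ⟨a, g', beta_injective K N ?_⟩
  rw [map_mul, map_pow, hg']
  exact h1

/-- the converse: a constant times an `m`-th power over `K` is an `m`-th power over `Kb`. -/
theorem exists_pow_eq_beta {m : ℕ} (hm : m ≠ 0) (y g' : modularFunctionFieldFullC K N) (c' : K)
    (h : y = algebraMap K (modularFunctionFieldFullC K N) c' * g' ^ m) :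
    ∃ g : FF N, g ^ m = beta K N y := by
  obtain ⟨z, hz⟩ := IsAlgClosed.exists_pow_nat_eq (algebraMap K Kb c') (Nat.pos_of_ne_zero hm)
  refine ⟨algebraMap Qb (FF N) z * beta K N g', ?_⟩
  rw [mul_pow, ← map_pow, hz, h, map_mul, map_pow, beta_algebraMap]

end

end Fermat.Agent.S36.Norm.KForm
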