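import Fermat.Agent.S36.Norm.KForm.Deg
import Fermat.Agent.S36.Norm.KForm.Root
import Fermat.Agent.S36.Base.DescentL0

/-!
# S36/Norm/KForm: reduction of (NOINV) for `Kum M m` to a statement on `F_K(M)`, `K = L0 A`

* `NoInvK K N₁ M l h₁ h₂ m κ` : the statement over `K`:
  `f ∈ F_K(M)ˣ`, `m ∣ ord_P f` for all places `P` of `F_K(M)/K`, both norms to level `N₁`
  (along `q ↦ q` and `q ↦ q^l`) of the form `const · m`-th power  ⟹  `f^κ = const · m`-th power.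
* `smul_eq_zero_of_NoInvK` : `NoInvK` ⟹ `κ • x = 0` for every `x ∈ Kum M m` represented by a function with
  coefficients in `K` and killed by the two norms `Nm`.
* `smul_eq_zero_of_inertia` : the case `K = L0 A`, `x` fixed by the inertia group of `A`.
* `coeffMap_nmK`, `Vq_nmK` : `q`-expansion of the `K`-level norm along `V_l`.
-/

set_option autoImplicit false
set_option linter.style.haveILetI false
set_option linter.unusedSectionVars false

open AlgebraicCurve ModularCurve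
open scoped IntermediateField

namespace Fermat.Agent.S36.Norm.KForm

open Fermat.Agent.ES Fermat.Agent.S24 Fermat.Agent.Crux.GT.PF Fermat.Agent.S36.Base

noncomputable section

variable (K : Type) [Field K] [Algebra K Kb]

/-- `y` is a constant times an `m`-th power in `F_K(N)`. -/
def IsCPow (N : ℕ) [NeZero N] (m : ℕ) (y : modularFunctionFieldFullC K N) : Prop :=
  ∃ (c : K) (g : modularFunctionFieldFullC K N),
    y = algebraMap K (modularFunctionFieldFullC K N) c * g ^ m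

/-- (NOINV) over `K`. -/
def NoInvK (N₁ M l : ℕ) [NeZero N₁] [NeZero M] [NeZero l] (h₁ : 1 * N₁ ∣ M) (h₂ : l * N₁ ∣ M)
    (m κ : ℕ) : Prop :=
  ∀ f : modularFunctionFieldFullC K M, f ≠ 0 →
    (∀ P : Place K (modularFunctionFieldFullC K M), (m : ℤ) ∣ P.ord f) →
    IsCPow K N₁ m (nmK K N₁ M 1 h₁ f) → IsCPow K N₁ m (nmK K N₁ M l h₂ f) →
    IsCPow K M m (f ^ κ)

variable {K}

theorem isCPow_nmK_of_Nm_eq_zero (N₁ M e : ℕ) [NeZero N₁] [NeZero M] [NeZero e] (h : e * N₁ ∣ M)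
    {m : ℕ} (hm : m ≠ 0) (f : Dm M m) (f₀ : modularFunctionFieldFullC K M)
    (hf : beta K M f₀ = ((f : (FF M)ˣ) : FF M)) (h0 : Nm N₁ M e h m (Kum.mk f) = 0) :
    IsCPow K N₁ m (nmK K N₁ M e h f₀) := by
  obtain ⟨g, hg⟩ := (Nm_mk_eq_zero_iff N₁ M e h f).mp h0
  have hf₀ : f₀ ≠ 0 := by
    rintro rfl
    rw [map_zero] at hf
    exact (f : (FF M)ˣ).ne_zero hf.symm
  refine exists_root_K K N₁ hm _ (nmK_ne_zero K N₁ M e h hf₀) 1 (g : FF N₁) ?_
  rw [beta_nmK, hf, map_one, one_mul, hg]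

theorem smul_eq_zero_of_NoInvK (N₁ M l : ℕ) [NeZero N₁] [NeZero M] [NeZero l] (h₁ : 1 * N₁ ∣ M)
    (h₂ : l * N₁ ∣ M) {m : ℕ} (hm : m ≠ 0) (κ : ℕ) (H : NoInvK K N₁ M l h₁ h₂ m κ) (f : Dm M m)
    (hcoeff : ∀ n : ℤ, ((((f : (FF M)ˣ) : FF M) : LaurentSeries Qb)).coeff n
      ∈ (algebraMap K Kb).range)
    (hA : Nm N₁ M 1 h₁ m (Kum.mk f) = 0) (hB : Nm N₁ M l h₂ m (Kum.mk f) = 0) :
    κ • Kum.mk f = 0 := by
  obtain ⟨f₀, hf₀⟩ := exists_beta_eq K M ((f : (FF M)ˣ) : FF M) hcoeff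
  have hne : f₀ ≠ 0 := by
    rintro rfl
    rw [map_zero] at hf₀
    exact (f : (FF M)ˣ).ne_zero hf₀.symm
  obtain ⟨c, g, hcg⟩ := H f₀ hne
    (dvd_ord_of_beta K M m f₀ (fun Q => by rw [hf₀]; exact f.2 Q))
    (isCPow_nmK_of_Nm_eq_zero N₁ M 1 h₁ hm f f₀ hf₀ hA)
    (isCPow_nmK_of_Nm_eq_zero N₁ M l h₂ hm f f₀ hf₀ hB)
  obtain ⟨g', hg'⟩ := exists_pow_eq_beta K M hm _ g c hcg
  rw [map_pow, hf₀] at hg'
  have hg'0 : g' ≠ 0 := by
    rintro rfl
    rw [zero_pow hm] at hg'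
    exact pow_ne_zero κ (f : (FF M)ˣ).ne_zero hg'.symm
  rw [← Kum.mk_pow, Kum.mk_eq_zero_iff]
  exact ⟨Units.mk0 g' hg'0, Units.ext (by simpa using hg')⟩

/-- **The reduction of (NOINV) to the inertia field.** -/
theorem smul_eq_zero_of_inertia (A : ValuationSubring Qb) (N₁ M l : ℕ) [NeZero N₁] [NeZero M]
    [NeZero l] (h₁ : 1 * N₁ ∣ M) (h₂ : l * N₁ ∣ M) {m : ℕ} (hm : m ≠ 0) (κ : ℕ)
    (H : NoInvK (L0 A) N₁ M l h₁ h₂ m κ) (x : Kum M m)
    (hx : ∀ σ ∈ A.inertiaSubgroupIn ℚ, galKum M m σ x = x)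
    (hA : Nm N₁ M 1 h₁ m x = 0) (hB : Nm N₁ M l h₂ m x = 0) : κ • x = 0 := by
  obtain ⟨f, rfl, hf⟩ := exists_rep_coeff_mem_L0 M m hm A x hx
  exact smul_eq_zero_of_NoInvK N₁ M l h₁ h₂ hm κ H f (fun n => ⟨⟨_, hf n⟩, rfl⟩) hA hB

/-! ### `q`-expansions of the norms over `K` -/

variable (K)

theorem coeffMap_nmK (N M l : ℕ) [NeZero N] [NeZero M] [NeZero l] (hl : l.Prime) (hlN : l ∣ N)
    (hM : M = l * N) (h : l * N ∣ M) (f : modularFunctionFieldFullC K M) :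
    coeffMap (algebraMap K Kb) ((nmK K N M l h f : modularFunctionFieldFullC K N) : LaurentSeries K)
      = normSer l (coeffMap (algebraMap K Kb) (f : LaurentSeries K)) := by
  rw [← beta_coe, beta_nmK, coe_nmF N M l hl hlN hM h, beta_coe]

theorem Vq_nmK (N M l : ℕ) [NeZero N] [NeZero M] [NeZero l] (hl : l.Prime) (hlN : l ∣ N)
    (hM : M = l * N) (h : l * N ∣ M) (f : modularFunctionFieldFullC K M) :
    coeffMap (algebraMap K Kb)
        (qExpand K l ((nmK K N M l h f : modularFunctionFieldFullC K N) : LaurentSeries K))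
      = twistProd l (coeffMap (algebraMap K Kb) (f : LaurentSeries K)) := by
  rw [coeffMap_qExpand, ← beta_coe, beta_nmK, ← beta_coe]
  exact Vq_nmF N M l hl hlN hM h (beta K M f)

end

end Fermat.Agent.S36.Norm.KForm
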