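import Fermat.Agent.S36.Norm.KForm.Basic
import Fermat.Agent.S36.Norm.ConstExt
import Fermat.Agent.S37.Red.FF1

/-!
# S36/Norm/KForm: (Kd) `m ∣ ord` at all places of `FF M` implies the same at all places of `F_K(M)/K`
-/

set_option autoImplicit false
set_option linter.style.haveILetI false
set_option linter.unusedSectionVars false

open AlgebraicCurve ModularCurve
open scoped IntermediateField

namespace Fermat.Agent.S36.Norm.KForm

open Fermat.Agent.ES Fermat.Agent.S24 Fermat.Agent.Crux.GT.PF

noncomputable section

variable (K : Type) [Field K] [Algebra K Kb] (M : ℕ) [NeZero M]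

theorem charZero_K : CharZero K :=
  ((algebraMap K Kb).charZero_iff (algebraMap K Kb).injective).mpr inferInstance

theorem isAlgebraic_K : Algebra.IsAlgebraic K Kb := by
  haveI := charZero_K K
  have h1 : Algebra.IsAlgebraic ℚ (AlgebraicClosure ℚ) :=
    (inferInstance : @Algebra.IsAlgebraic ℚ (AlgebraicClosure ℚ) _ _
      (AlgebraicClosure.instAlgebra ℚ))
  refine ⟨fun x => ?_⟩
  have h2 : IsAlgebraic ℚ x := h1.isAlgebraic x
  exact h2.tower_top K

theorem ff1_FF : S26.FF1 Qb (FF M) := by
  haveI := S24.finiteDimensional_FN M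
  exact S37.Red.ff1_of_finiteDimensional (S24.transcendental_jN M)

/-- **(Kd)** -/
theorem dvd_ord_of_beta (m : ℤ) (f : modularFunctionFieldFullC K M)
    (hf : ∀ Q : Place Qb (FF M), m ∣ Q.ord (beta K M f))
    (P : Place K (modularFunctionFieldFullC K M)) : m ∣ P.ord f := by
  haveI := charZero_K K
  haveI := isAlgebraic_K K
  haveI := ff1_FF M
  letI : Algebra (modularFunctionFieldFullC K M) (FF M) := (beta K M).toAlgebra
  letI : Algebra K (FF M) := ((algebraMap Qb (FF M)).comp (algebraMap K Kb)).toAlgebra
  haveI : IsScalarTower K Kb (FF M) := IsScalarTower.of_algebraMap_eq fun _ => rfl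
  haveI : IsScalarTower K (modularFunctionFieldFullC K M) (FF M) :=
    IsScalarTower.of_algebraMap_eq fun a => (beta_algebraMap K M a).symm
  exact ConstExt.dvd_ord_of_forall (K := K) (Kb := Kb) (FK := modularFunctionFieldFullC K M)
    (F := FF M) (fun C h₁ h₂ => subfield_eq_top_of_beta K M C h₁ h₂) m f hf P

end

end Fermat.Agent.S36.Norm.KForm
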